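import Mathlib.NumberTheory.FLT.Basic
import Mathlib.NumberTheory.FLT.Three
import Mathlib.NumberTheory.FLT.Four
import Fermat.Prelude.Def_FLTPrelim_FreyPackage

/-!
# Reduction of the root statement S01 to S02 + S03

`Fermat.Agent.S01.flt_of_freyPackage` : if every counterexample for a prime exponent `p ≥ 5`
yields a Frey package (S02) and no Frey package exists (S03), then Fermat's Last Theorem holds
in the elementary form of S01.  The cases `n = 3`, `n = 4` come from Mathlib.
-/

set_option autoImplicit false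

namespace Fermat.Agent.S01

/-- Reduction of S01 to (the statements of) S02 and S03. -/
theorem flt_of_freyPackage
    (h02 : ∀ (a b c : ℤ), a ≠ 0 → b ≠ 0 → c ≠ 0 → ∀ (p : ℕ), p.Prime → 5 ≤ p →
      a ^ p + b ^ p = c ^ p → Nonempty FreyPackage)
    (h03 : FreyPackage → False) : FermatLastTheorem := by
  apply FermatLastTheorem.of_odd_primes
  intro p pp hodd
  by_cases h5 : 5 ≤ p
  · rw [fermatLastTheoremFor_iff_int]
    intro a b c ha hb hc H
    obtain ⟨P⟩ := h02 a b c ha hb hc p pp h5 H
    exact h03 P
  · have h2 : p ≠ 2 := by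
      rintro rfl
      exact absurd hodd (by decide)
    have h4 : p ≠ 4 := by
      rintro rfl
      exact absurd pp (by decide)
    have hp2 := pp.two_le
    have h3 : p = 3 := by omega
    subst h3
    exact fermatLastTheoremThree

/-- The elementary form of S01 from S02 and S03. -/
theorem result_of_freyPackage
    (h02 : ∀ (a b c : ℤ), a ≠ 0 → b ≠ 0 → c ≠ 0 → ∀ (p : ℕ), p.Prime → 5 ≤ p →
      a ^ p + b ^ p = c ^ p → Nonempty FreyPackage)
    (h03 : FreyPackage → False)
    (n : ℕ) (hn : 3 ≤ n) (a b c : ℕ) (ha : 0 < a) (hb : 0 < b) (hc : 0 < c) :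
    a ^ n + b ^ n ≠ c ^ n :=
  flt_of_freyPackage h02 h03 n hn a b c ha.ne' hb.ne' hc.ne'

end Fermat.Agent.S01
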